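/-
S55 / P3P4 ROUTE F (helper20): **(β→) over `ℚ` for helper37's total system, UNCONDITIONAL.**

`hβ_totalSysU` = the binder `hβ` of `RecipBase20.reciprocity_of_levels_div0(_br)` for
`invFam i := SysH2.toH2top (totalSysU hp2 i.1 S)` (helper37 `RecT.totalSysU`; this is helper15's
`Recip15.HJ.invFam S (fun i q => locSysU q i.1) (twistU hp2) qzProj qzProj_one` by `rfl`).

Ingredients (all on main): helper37 `RecTSeam.finLayerHyp_D2` at `H = ⊤`, `j = 0`, `s = 0`
(31-OUT/32-OUT = helper77 `Leaf33Final`); helper54 `ToH2Bridge.toH2top_restrict` + `RecipTop20.toH2_top`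
(invJ = `(toH2top I).comp topMap`); `RecipTop20.beta_to_top_class`; helper87
`JSplitSupp.exists_level_res₂_JIS_eq_zero_towerCharK S ∅ n 0` (no support outside `S`:
`ps_compOut_eq_zero`), local injectivity = helper22 `D2.ofGSys_inv_eq_zero` + helper93 `locSysE_inj`;
level `l := i ⊔ ℚ(μ_{p^(m+1)})` (`cycLev`, `normal_cycloField`).
-/
import Fermat.Agent.S55.RecipTop20
import Fermat.Agent.S55.CycloRecip37.RecTSeam
import Fermat.Agent.S55.IdeleCoh54.ToH2Bridge
import Fermat.Agent.S55.CycloGlobal87.JSplitSupp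
import Fermat.Agent.S55.Adapt77.Leaf33Final
import Fermat.Agent.S55.DegSum22.D2Split
import Fermat.Agent.S55.UnrExt93.InflInj
import Fermat.Agent.S55.Recip15.HJ

set_option autoImplicit false
set_option linter.unusedSectionVars false
set_option linter.style.haveILetI false

open CategoryTheory groupCohomology ExtCitation
open Fermat.Agent.S55.CS79.FamilyCS Fermat.Agent.S55.CS79.FamilyMaps
open Fermat.Agent.S55.CS79.LevelClass
open Fermat.Agent.S55.LimDesc99 Fermat.Agent.S55.Idele73.Basic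
open Fermat.Agent.S55.Recip15.Family
open Fermat.Agent.S55.RecipTop20
open Fermat.Agent.S55.GlobalInv91
open Fermat.Agent.S55.IdeleVal44
open Fermat.Agent.S55.Shapiro9.SumSplit Fermat.Agent.S55.Shapiro9.JSplitD2
open Fermat.Agent.S55.CycloGlobal87
open Fermat.Agent.Lib.FrobeniusExists (isAlgebraic_Qb isAlgClosure_Qb isGalois_Qb)

namespace Fermat.Agent.S55.RecipBase20

attribute [local instance] isAlgebraic_Qb isAlgClosure_Qb isGalois_Qb

section Level

open Fermat.Agent.S55.CycloTower46.Global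

/-- the cyclotomic fields are normal over `ℚ` -/
theorem normal_cycloField (n : ℕ) : Normal ℚ (cycloField n) := by
  have key : ∀ σ : Qbar ≃ₐ[ℚ] Qbar, (cycloField n).map (σ : Qbar →ₐ[ℚ] Qbar) ≤ cycloField n := by
    intro σ
    unfold cycloField
    rw [IntermediateField.adjoin_map]
    apply IntermediateField.adjoin.mono
    rintro _ ⟨ζ, hζ, rfl⟩
    show (σ ζ) ^ n = 1
    rw [← map_pow, (hζ : ζ ^ n = 1), map_one]
  have h := IntermediateField.normal_iff_forall_map_le'.mpr key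
  convert h
  exact Subsingleton.elim _ _

variable {p : ℕ} [hp : Fact p.Prime] (S : Finset Nat.Primes)

/-- the Galois `S`-level `ℚ(μ_{p^(M+1)})` -/
noncomputable def cycLev (hpS : pPrime p ∈ S) (M : ℕ) : GalLev S :=
  ⟨cycloField (p ^ (M + 1)), normal_cycloField _,
    cycloField_prime_pow_isUnramifiedOutside S ⟨p, hp.out⟩ hpS (M + 1)⟩

theorem towerField_le_cycLev (hpS : pPrime p ∈ S) (M : ℕ) :
    towerField p M ≤ (cycLev S hpS M).1 :=
  towerField_le_cycloField p M

theorem mem_cycLev (hpS : pPrime p ∈ S) (M : ℕ) {ζ : Qbar} (hζ : ζ ^ p = 1) :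
    ζ ∈ (cycLev S hpS M).1 :=
  mem_cycloField (by rw [pow_succ', pow_mul, hζ, one_pow])

end Level

section Split

variable {S : Finset Nat.Primes}

local instance findim20 (l : GalLev S) : FiniteDimensional ℚ l.1 := l.unr.1

/-- a class of `H²(↥⊤, J_S × I^S)` coming from the `J_S`-factor has no component outside `S` -/
theorem ps_compOut_eq_zero (l : GalLev S) (x : H2 (JS l.1 S))
    (y : H2 (Rep.res (⊤ : Subgroup (GalL l.1)).subtype (JIS l.1 S)))
    (hy : topMap (JIS l.1 S) y = inlLev S l x) (ℓ : OutS S) :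
    ps (compOut l.1 S ℓ) ⊤ y = 0 := by
  have hy' : y = (res₂ (JIS l.1 S) ⊤).hom (inlLev S l x) := by rw [← hy, res₂_topMap]
  subst hy'
  induction x using H2_induction_on with | @h c =>
  show ps (compOut l.1 S ℓ) ⊤ ((res₂ (JIS l.1 S) ⊤).hom
    ((groupCohomology.map (MonoidHom.id (GalL l.1))
      (prodRep.inl (JS l.1 S) (IS l.1 S)) 2).hom ((H2π (JS l.1 S)).hom c))) = 0
  rw [H2π_comp_map_apply]
  erw [H2π_comp_map_apply]
  rw [ps_H2π]
  refine (H2π_eq_zero_iff _).2 ?_
  rw [← isCob₂_iff_mem]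
  refine ⟨fun _ => 0, fun g h' => ?_⟩
  have hL : ((Rep.res (⊤ : Subgroup (GalL l.1)).subtype (Zq l.1 ℓ.1.1)).ρ g) (0 : Zq l.1 ℓ.1.1)
      - 0 + 0 = 0 := by
    rw [map_zero, sub_zero, add_zero]
  refine Eq.trans hL (Eq.symm ?_)
  show (Fermat.Agent.S55.Idele73.DirectSumRep.proj (fun ℓ : OutS S => Zq l.1 ℓ.1.1) ℓ).hom
    ((prodRep.snd (JS l.1 S) (IS l.1 S)).hom ((prodRep.inl (JS l.1 S) (IS l.1 S)).hom
      (c.1 ((g : GalL l.1), (h' : GalL l.1))))) = 0
  rw [prodRep.inl_hom_apply, prodRep.snd_hom_apply, prodRep.p2_mk, map_zero]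

end Split

section Main

open Fermat.Agent.S55.CycloRecip37 Fermat.Agent.S55.CycloRecip37.RecT
  Fermat.Agent.S55.CycloRecip37.RecTSeam Fermat.Agent.S55.CycloRecip37.SysH2
  Fermat.Agent.S55.CycloRecip37.Uncond Fermat.Agent.S55.CycloRecip37.TowerRecip
  Fermat.Agent.S55.IdeleCoh54.ToH2Bridge Fermat.Agent.S55.QZ33
  Fermat.Agent.S55.DegSum22 Fermat.Agent.S55.Adapt77.Leaf33Final
  Fermat.Agent.S55.CycloGlobal87.JSplitSupp

variable {p : ℕ} [hp : Fact p.Prime] {S : Finset Nat.Primes}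

local instance findim20' (l : GalLev S) : FiniteDimensional ℚ l.1 := l.unr.1

attribute [local instance] Fermat.Agent.S55.IdeleVal44.factPrimes44

/-- the tower character of level `0` is trivial -/
theorem towerCharL_zero (hp2 : p ≠ 2) (L : IntermediateField ℚ Qbar) [Normal ℚ L]
    (h : towerField p 0 ≤ L) (g : GalL L) : towerCharL p L hp2 0 h g = 1 := by
  have hs : Subsingleton (ZMod (p ^ 0)) := by
    rw [pow_zero]
    exact inferInstanceAs (Subsingleton (Fin 1))
  apply Multiplicative.toAdd.injective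
  exact Subsingleton.elim _ _

/-- the tower character of level `1` is not trivial -/
theorem exists_towerCharL_one_ne (hp2 : p ≠ 2) (L : IntermediateField ℚ Qbar) [Normal ℚ L]
    (h : towerField p (0 + 1) ≤ L) :
    ∃ g ∈ (⊤ : Subgroup (GalL L)), towerCharL p L hp2 (0 + 1) h g ≠ 1 := by
  obtain ⟨g, hg⟩ := towerCharL_surjective p L hp2 (0 + 1) h (Multiplicative.ofAdd 1)
  refine ⟨g, Subgroup.mem_top g, ?_⟩
  rw [hg]
  intro h1
  have h2 : (1 : ZMod (p ^ (0 + 1))) = 0 := Multiplicative.ofAdd.injective h1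
  have : Fact (1 < p ^ (0 + 1)) := ⟨by rw [zero_add, pow_one]; exact hp.out.one_lt⟩
  exact one_ne_zero h2

/-- **(β→) over `ℚ` for helper37's total system `totalSysU`**, divisor-free form (the binder `hβ`
of `reciprocity_of_levels_div0(_br)`), unconditional. -/
theorem hβ_totalSysU (hp2 : p ≠ 2) (hpS : pPrime p ∈ S)
    (i : GalLev S) (e : H2 (Lx i.1)) (n : ℕ) (he : p ^ n • e = 0) (hd : dLev S i e = 0) :
    ∃ (l : GalLev S) (h : l ≤ i),
      toH2top (totalSysU hp2 l.1 S) (aLev l (Datum.trans₂ ((famK S).mono h) e)) = 0 := by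
  obtain ⟨M₀, hM₀⟩ := exists_level_res₂_JIS_eq_zero_towerCharK p hp2 S ∅ n 0 (A := QZ)
  obtain ⟨m, hm1, hmM⟩ : ∃ m, 1 ≤ m ∧ M₀ ≤ 0 + m := ⟨max M₀ 1, le_max_right _ _, by omega⟩
  let l : GalLev S := i.sup (cycLev S hpS m)
  have hli : l ≤ i := GalLev.sup_le_left _ _
  have hlc : l ≤ cycLev S hpS m := GalLev.sup_le_right _ _
  refine ⟨l, hli, ?_⟩
  obtain ⟨ζ, hζ⟩ := exists_primitiveRoot p
  have hζl : ζ ∈ l.1 := hlc (mem_cycLev S hpS m hζ.pow_eq_one)
  have hζ' : IsPrimitiveRoot (⟨ζ, hζl⟩ : ↥l.1) p :=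
    IsPrimitiveRoot.of_map_of_injective (f := l.1.val) (by simpa using hζ) l.1.val.injective
  have hle' : towerField p (0 + m) ≤ l.1 := by
    rw [zero_add]
    exact (towerField_le_cycLev S hpS m).trans hlc
  have hle : towerField p (0 + m + 0) ≤ l.1 := hle'
  have h31 := firstIneqOut_CS (p := p) ⟨_, hpS⟩ hp2 (unrOutside S l.1 l.unr)
  have h32 := secondIneqOut_top hpS hp2 l.unr (unrOutside S l.1 l.unr) ⟨ζ, hζl⟩ hζ'
  have hj : ∀ g ∈ (⊤ : Subgroup (GalL l.1)), towerCharL p l.1 hp2 0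
      ((towerField_mono p (Nat.le_add_right 0 m)).trans hle') g = 1 :=
    fun g _ => towerCharL_zero hp2 l.1 _ g
  have hex : ∃ g ∈ (⊤ : Subgroup (GalL l.1)), towerCharL p l.1 hp2 (0 + 1)
      ((towerField_mono p (Nat.add_le_add_left hm1 0)).trans hle') g ≠ 1 :=
    exists_towerCharL_one_ne hp2 l.1 _
  have hs : ∀ i, p ^ i ∣ (⊤ : Subgroup (GalL l.1)).normalCore.index → i ≤ 0 := by
    intro i hi
    rw [Subgroup.normalCore_eq_self, Subgroup.index_top, Nat.dvd_one] at hi
    rcases Nat.pow_eq_one.1 hi with h1 | h1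
    · exact absurd h1 hp.out.ne_one
    · exact le_of_eq h1
  have hfin := finLayerHyp_D2 hp2 l.unr (unrOutside S l.1 l.unr) hpS ⊤ h31 le_top h32 0 m 0 hle hj
    hm1 hex hs
  have hinv : toH2top (restrict ⊤ (totalSysU hp2 l.1 S)) =
      (toH2top (totalSysU hp2 l.1 S)).comp (topMap (JIS l.1 S)) :=
    (toH2top_restrict (totalSysU hp2 l.1 S) ⊤).trans (toH2_top (totalSysU hp2 l.1 S))
  have hfin' : FinLayerHyp
      (Fermat.Agent.S55.CLDescent35.Hilbert90.sesRes (unrOutside S l.1 l.unr) ⊤) p m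
      (towerCharK p hp2 l.1 ⊤ 0 m hle' hj)
      ((toH2top (totalSysU hp2 l.1 S)).comp (topMap (JIS l.1 S))) :=
    Eq.mp (congrArg (FinLayerHyp
      (Fermat.Agent.S55.CLDescent35.Hilbert90.sesRes (unrOutside S l.1 l.unr) ⊤) p m
      (towerCharK p hp2 l.1 ⊤ 0 m hle' hj)) hinv) hfin
  rw [trans₂_eq_map_desc]
  refine beta_to_top_class (Y := sesJIS (unrOutside S l.1 l.unr)) hfin'
    (isDesc_datum ((famK S).mono hli)) e he ?_
  intro y hy
  have hd' : dLev S l (Datum.trans₂ ((famK S).mono hli) e) = 0 := by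
    rw [dLev_trans₂ hli, hd]
    exact map_zero _
  have hy' : topMap (JIS l.1 S) y =
      inlLev S l (sLev S l (Datum.trans₂ ((famK S).mono hli) e)) := by
    refine hy.trans ?_
    have h3 : aLev l (Datum.trans₂ ((famK S).mono hli) e) =
        inlLev S l (sLev S l (Datum.trans₂ ((famK S).mono hli) e)) := by
      rw [aLev_eq, hd', map_zero, add_zero]
    refine Eq.trans ?_ h3
    show aLev l _ = aLev l _
    exact congrArg (aLev l) (trans₂_eq_map_desc ((famK S).mono hli) e).symm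
  have h0 : p ^ n • Datum.trans₂ ((famK S).mono hli) e = 0 :=
    (map_nsmul (Datum.trans₂ ((famK S).mono hli)) (p ^ n) e).symm.trans
      ((congrArg (Datum.trans₂ ((famK S).mono hli)) he).trans (map_zero _))
  have h1 : p ^ n • sLev S l (Datum.trans₂ ((famK S).mono hli) e) = 0 :=
    (map_nsmul (sLev S l) (p ^ n) _).symm.trans ((congrArg (sLev S l) h0).trans (map_zero _))
  have h2 : p ^ n • inlLev S l (sLev S l (Datum.trans₂ ((famK S).mono hli) e)) = 0 :=
    (map_nsmul (inlLev S l) (p ^ n) _).symm.trans ((congrArg (inlLev S l) h1).trans (map_zero _))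
  have h3 : p ^ n • topMap (JIS l.1 S) y = 0 := (congrArg (fun t => p ^ n • t) hy').trans h2
  have h4 : (res₂ (JIS l.1 S) ⊤).hom (topMap (JIS l.1 S) y) = y := res₂_topMap (JIS l.1 S) y
  have h5 : p ^ n • (res₂ (JIS l.1 S) ⊤).hom (topMap (JIS l.1 S) y) = 0 :=
    (map_nsmul (res₂ (JIS l.1 S) ⊤).hom (p ^ n) _).symm.trans
      ((congrArg (res₂ (JIS l.1 S) ⊤).hom h3).trans (map_zero _))
  have hpy : p ^ n • y = 0 := (congrArg (fun t => p ^ n • t) h4).symm.trans h5
  have hH : (⊤ : Subgroup (GalL l.1)).index < p ^ (0 + 1) := by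
    rw [Subgroup.index_top, zero_add, pow_one]
    exact hp.out.one_lt
  exact hM₀ 0 m hmM l.1 l.unr hle' (fun q => LocInvSystem.ofGSys (locSysU q.1 l.1))
    (fun q D u _ hu => D2.ofGSys_inv_eq_zero (locSysU q.1 l.1)
      (fun D f hf h0 => Fermat.Agent.S55.UnrExt93.locSysE_inj _ hf h0) D u hu)
    ⊤ hH hj y hpy (fun ℓ hℓ => absurd (ps_compOut_eq_zero l _ y hy' ℓ) hℓ)

end Main

end Fermat.Agent.S55.RecipBase20
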